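import Fermat.Agent.H22.ES.KLSetting

/-!
# P-ES row KL-K-3 (helper88), part 1: discrete valuation subrings via valuations

General lemmas on valuation subrings `v` of a field `E` presented by a valuation `val`
(`x ∈ v ↔ val x ≤ 1`), and the notion `DiscAt val t` ("`val` is discrete with uniformiser `t`").
-/

set_option autoImplicit false
set_option maxSynthPendingDepth 3

noncomputable section

namespace Fermat.Agent.H88.KLB

open Fermat.Agent.H22.KL

variable {E : Type} [Field E] {Γ : Type*} [LinearOrderedCommGroupWithZero Γ]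

/-- the valuation `val` presents the valuation subring `v` -/
def Presents (v : ValuationSubring E) (val : Valuation E Γ) : Prop := ∀ x, x ∈ v ↔ val x ≤ 1

theorem presents_valuation (v : ValuationSubring E) : Presents v v.valuation :=
  fun x => (v.valuation_le_one_iff x).symm

theorem Presents.comap {E₀ : Type} [Field E₀] {v : ValuationSubring E} {val : Valuation E Γ}
    (hv : Presents v val) (f : E₀ →+* E) : Presents (v.comap f) (val.comap f) :=
  fun x => by rw [ValuationSubring.mem_comap, hv]; rfl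

theorem Presents.mem_nonunits {v : ValuationSubring E} {val : Valuation E Γ}
    (hv : Presents v val) {x : E} : x ∈ v.nonunits ↔ val x < 1 := by
  rw [ValuationSubring.mem_nonunits_iff]
  rcases eq_or_ne x 0 with rfl | hx
  · simp
  · rw [← not_le, ← not_le, Valuation.one_le_val_iff _ hx, Valuation.one_le_val_iff _ hx,
      ValuationSubring.valuation_le_one_iff, hv]

theorem Presents.val_eq_one_iff {v : ValuationSubring E} {val : Valuation E Γ}
    (hv : Presents v val) {x : E} (hx : x ≠ 0) : val x = 1 ↔ x ∈ v ∧ x⁻¹ ∈ v := by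
  rw [hv, hv]
  constructor
  · intro h
    refine ⟨h.le, ?_⟩
    rw [map_inv₀, h, inv_one]
  · rintro ⟨h1, h2⟩
    apply le_antisymm h1
    rwa [Valuation.one_le_val_iff _ hx]

/-- `val` is a discrete valuation with uniformiser `t` -/
def DiscAt (val : Valuation E Γ) (t : E) : Prop :=
  t ≠ 0 ∧ val t < 1 ∧ ∀ z : E, z ≠ 0 → ∃ k : ℤ, val z = val t ^ k

namespace DiscAt

variable {val : Valuation E Γ} {t : E}

theorem pos (h : DiscAt val t) : 0 < val t :=
  zero_lt_iff.mpr ((Valuation.ne_zero_iff _).mpr h.1)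

theorem ne_one (h : DiscAt val t) : val t ≠ 1 := h.2.1.ne

theorem zpow_lt_one_iff (h : DiscAt val t) {k : ℤ} : val t ^ k < 1 ↔ 0 < k :=
  zpow_lt_one_iff_right_of_lt_one₀ h.pos h.2.1

theorem zpow_le_one_iff (h : DiscAt val t) {k : ℤ} : val t ^ k ≤ 1 ↔ 0 ≤ k :=
  zpow_le_one_iff_right_of_lt_one₀ h.pos h.2.1

theorem zpow_eq_one_iff (h : DiscAt val t) {k : ℤ} : val t ^ k = 1 ↔ k = 0 := by
  constructor
  · intro hk
    have := zpow_right_injective₀ h.pos h.ne_one (a₁ := k) (a₂ := 0)
    apply this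
    simpa using hk
  · rintro rfl
    simp

theorem zpow_le_zpow_iff (h : DiscAt val t) {k l : ℤ} : val t ^ k ≤ val t ^ l ↔ l ≤ k :=
  (zpow_right_strictAnti₀ h.pos h.2.1).le_iff_ge

theorem zpow_inj (h : DiscAt val t) {k l : ℤ} : val t ^ k = val t ^ l ↔ k = l :=
  (zpow_right_injective₀ h.pos h.ne_one).eq_iff

theorem le_of_lt_one (h : DiscAt val t) {y : E} (hy : val y < 1) : val y ≤ val t := by
  rcases eq_or_ne y 0 with rfl | hy0
  · simp
  obtain ⟨k, hk⟩ := h.2.2 y hy0
  rw [hk] at hy ⊢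
  have hk1 : 1 ≤ k := h.zpow_lt_one_iff.mp hy
  calc val t ^ k ≤ val t ^ (1 : ℤ) := h.zpow_le_zpow_iff.mpr hk1
    _ = val t := zpow_one _

theorem isUniformiser (h : DiscAt val t) {v : ValuationSubring E} (hv : Presents v val) :
    IsUniformiser E v t := by
  refine ⟨h.1, hv.mem_nonunits.mpr h.2.1, fun y hy => ?_⟩
  rw [hv, map_div₀]
  exact div_le_one_of_le₀ (h.le_of_lt_one (hv.mem_nonunits.mp hy)) zero_le

theorem val_eq_of_isUniformiser (h : DiscAt val t) {v : ValuationSubring E} (hv : Presents v val)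
    {t' : E} (ht' : IsUniformiser E v t') : val t' = val t := by
  obtain ⟨h0, h1, h2⟩ := ht'
  apply le_antisymm (h.le_of_lt_one (hv.mem_nonunits.mp h1))
  have := h2 t (hv.mem_nonunits.mpr h.2.1)
  rw [hv, map_div₀] at this
  have hpos : 0 < val t' := zero_lt_iff.mpr ((Valuation.ne_zero_iff _).mpr h0)
  exact (div_le_one₀ hpos).mp this

theorem of_isUniformiser (h : DiscAt val t) {v : ValuationSubring E} (hv : Presents v val)
    {t' : E} (ht' : IsUniformiser E v t') : DiscAt val t' := by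
  have heq := h.val_eq_of_isUniformiser hv ht'
  refine ⟨ht'.1, heq ▸ h.2.1, fun z hz => ?_⟩
  rw [heq]
  exact h.2.2 z hz

theorem ne_top (h : DiscAt val t) {v : ValuationSubring E} (hv : Presents v val) : v ≠ ⊤ := by
  intro htop
  have : t⁻¹ ∈ v := htop ▸ ValuationSubring.mem_top _
  rw [hv, map_inv₀] at this
  have h1 : 1 ≤ val t := by
    rwa [inv_le_one₀ h.pos] at this
  exact absurd h.2.1 (not_lt.mpr h1)

end DiscAt

/-- the unit of `v` given by an element of `E` of value `1` -/
theorem exists_unit_of_val_eq_one {v : ValuationSubring E} {val : Valuation E Γ}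
    (hv : Presents v val) {x : E} (hx : val x = 1) :
    ∃ u : (↥v)ˣ, ((u : ↥v) : E) = x := by
  have hx0 : x ≠ 0 := by
    rintro rfl
    simp at hx
  obtain ⟨h1, h2⟩ := (hv.val_eq_one_iff hx0).mp hx
  refine ⟨⟨⟨x, h1⟩, ⟨x⁻¹, h2⟩, ?_, ?_⟩, rfl⟩
  · apply Subtype.ext
    show x * x⁻¹ = 1
    exact mul_inv_cancel₀ hx0
  · apply Subtype.ext
    show x⁻¹ * x = 1
    exact inv_mul_cancel₀ hx0

theorem val_unit {v : ValuationSubring E} {val : Valuation E Γ}
    (hv : Presents v val) (u : (↥v)ˣ) : val ((u : ↥v) : E) = 1 := by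
  have hu0 : ((u : ↥v) : E) ≠ 0 := by
    intro h
    have : (u : ↥v) = 0 := Subtype.ext h
    exact u.ne_zero this
  rw [hv.val_eq_one_iff hu0]
  refine ⟨(u : ↥v).2, ?_⟩
  have : ((u : ↥v) : E)⁻¹ = ((u⁻¹ : (↥v)ˣ) : ↥v) := by
    apply inv_eq_of_mul_eq_one_right
    rw [← MulMemClass.coe_mul, Units.mul_inv]
    rfl
  rw [this]
  exact ((u⁻¹ : (↥v)ˣ) : ↥v).2

theorem DiscAt.isPrincipalIdealRing {val : Valuation E Γ} {t : E} (h : DiscAt val t)
    {v : ValuationSubring E} (hv : Presents v val) : IsPrincipalIdealRing v := by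
  have htv : t ∈ v := (hv t).mpr h.2.1.le
  suffices hf : IsDiscreteValuationRing.HasUnitMulPowIrreducibleFactorization (↥v) by
    have := IsDiscreteValuationRing.ofHasUnitMulPowIrreducibleFactorization hf
    infer_instance
  have key : ∀ x : ↥v, x ≠ 0 → ∃ n : ℕ, ∃ u : (↥v)ˣ, x = u * (⟨t, htv⟩ : ↥v) ^ n := by
    intro x hx
    have hx0 : (x : E) ≠ 0 := fun h0 => hx (Subtype.ext h0)
    obtain ⟨k, hk⟩ := h.2.2 x hx0
    have hk0 : 0 ≤ k := by
      rw [← h.zpow_le_one_iff, ← hk]
      exact (hv _).mp x.2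
    obtain ⟨n, rfl⟩ := Int.eq_ofNat_of_zero_le hk0
    rw [zpow_natCast] at hk
    have h1 : val ((x : E) / t ^ n) = 1 := by
      rw [map_div₀, map_pow, hk]
      exact div_self (pow_ne_zero _ h.pos.ne')
    obtain ⟨u, hu⟩ := exists_unit_of_val_eq_one hv h1
    refine ⟨n, u, Subtype.ext ?_⟩
    show (x : E) = ((u : ↥v) : E) * t ^ n
    rw [hu, div_mul_cancel₀ _ (pow_ne_zero _ h.1)]
  have hirr : Irreducible (⟨t, htv⟩ : ↥v) := by
    refine ⟨?_, ?_⟩
    · intro hu
      obtain ⟨u, hu⟩ := hu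
      have := val_unit hv u
      rw [hu] at this
      exact h.ne_one this
    · intro a b hab
      have ha0 : a ≠ 0 := by
        rintro rfl
        rw [zero_mul] at hab
        exact h.1 (congrArg Subtype.val hab)
      have hb0 : b ≠ 0 := by
        rintro rfl
        rw [mul_zero] at hab
        exact h.1 (congrArg Subtype.val hab)
      obtain ⟨n, u, hn⟩ := key a ha0
      obtain ⟨m, u', hm⟩ := key b hb0
      have h2 := congrArg (fun z : ↥v => val (z : E)) hab
      simp only [hn, hm, MulMemClass.coe_mul, map_mul, SubmonoidClass.coe_pow, map_pow,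
        val_unit hv, one_mul] at h2
      rw [← pow_add] at h2
      have h3 : ((n + m : ℕ) : ℤ) = 1 := by
        rw [← h.zpow_inj, zpow_natCast, zpow_one]
        exact h2.symm
      have h4 : n + m = 1 := by exact_mod_cast h3
      rcases Nat.eq_zero_or_pos n with hn0 | hn0
      · left
        rw [hn, hn0, pow_zero, mul_one]
        exact u.isUnit
      · right
        have hm0 : m = 0 := by omega
        rw [hm, hm0, pow_zero, mul_one]
        exact u'.isUnit
  refine ⟨⟨t, htv⟩, hirr, fun {x} hx => ?_⟩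
  obtain ⟨n, u, hn⟩ := key x hx
  refine ⟨n, u, ?_⟩
  rw [hn, mul_comm]

/-- a principal valuation subring `≠ ⊤` is discrete -/
theorem exists_discAt {v : ValuationSubring E} {val : Valuation E Γ} (hv : Presents v val)
    (htop : v ≠ ⊤) (hpir : IsPrincipalIdealRing v) : ∃ t : E, DiscAt val t := by
  have hnf : ¬ IsField (↥v) := by
    intro hf
    apply htop
    refine SetLike.ext fun x => ⟨fun _ => ValuationSubring.mem_top x, fun _ => ?_⟩
    by_contra hx
    have hx0 : x ≠ 0 := fun h => hx (h ▸ v.zero_mem)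
    have hxi : x⁻¹ ∈ v := (v.mem_or_inv_mem x).resolve_left hx
    have hxi0 : (⟨x⁻¹, hxi⟩ : ↥v) ≠ 0 := by
      intro h0
      exact inv_ne_zero hx0 (congrArg Subtype.val h0)
    obtain ⟨b, hb⟩ := hf.mul_inv_cancel hxi0
    have hb' : x⁻¹ * (b : E) = 1 := congrArg Subtype.val hb
    have hbx : (b : E) = x := by
      field_simp at hb'
      exact hb'
    exact hx (hbx ▸ b.2)
  have : IsDiscreteValuationRing (↥v) :=
    { not_a_field' := by
        rw [ne_eq, ← IsLocalRing.isField_iff_maximalIdeal_eq]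
        exact hnf }
  obtain ⟨π, hπ⟩ := IsDiscreteValuationRing.exists_irreducible (↥v)
  have hπ0 : (π : E) ≠ 0 := fun h0 => hπ.ne_zero (Subtype.ext h0)
  have hπ1 : val (π : E) < 1 := by
    rw [← hv.mem_nonunits, ValuationSubring.mem_nonunits_iff_exists_mem_maximalIdeal]
    exact ⟨π.2, hπ.not_isUnit⟩
  refine ⟨(π : E), hπ0, hπ1, fun z hz => ?_⟩
  obtain ⟨n, u, hu⟩ :=
    IsDiscreteValuationRing.exists_units_eq_smul_zpow_of_irreducible (K := E) hπ hz
  refine ⟨n, ?_⟩
  rw [hu, Units.smul_def, Algebra.smul_def, map_mul, map_zpow₀]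
  have h1 : algebraMap (↥v) E (u : ↥v) = ((u : ↥v) : E) := rfl
  have h2 : algebraMap (↥v) E π = (π : E) := rfl
  rw [h1, h2, val_unit hv, one_mul]

end Fermat.Agent.H88.KLB
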