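import Fermat.Agent.H88.KL.KummerUnram

/-!
# P-ES row KL-K-3 (helper88): `KummerBranchStatement`

The branch hypothesis passes from `E₀` to the unramified Kummer extension `E = E₀(w)`,
`w ^ r = u`, `r ∣ ord_v u` at every place `v` of `E₀`.
-/

set_option autoImplicit false
set_option maxSynthPendingDepth 3

noncomputable section

namespace Fermat.Agent.H88.KLB

open Fermat.Agent.H22.KL Polynomial

variable {A : Type} [CommRing A]
variable {E₀ E : Type} [Field E₀] [Field E] [Algebra A E₀] [Algebra A E] [Algebra E₀ E]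
  [IsScalarTower A E₀ E]

/-! ### Restriction and extension of places -/

theorem mem_nonunits_comap (v : ValuationSubring E) (y : E₀) :
    y ∈ (v.comap (algebraMap E₀ E)).nonunits ↔ algebraMap E₀ E y ∈ v.nonunits := by
  rw [((presents_valuation v).comap (algebraMap E₀ E)).mem_nonunits,
    (presents_valuation v).mem_nonunits]
  rfl

/-- the restriction of a place of `E` to `E₀` is a place of `E₀` -/
theorem isPlace_comap [Algebra.IsAlgebraic E₀ E] {v : ValuationSubring E}
    (hv : IsPlace A E v) : IsPlace A E₀ (v.comap (algebraMap E₀ E)) := by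
  obtain ⟨htop, hpir, hA⟩ := hv
  obtain ⟨π, hπ⟩ := exists_discAt (presents_valuation v) htop hpir
  obtain ⟨t₀, ht₀⟩ := exists_discAt_comap (E₀ := E₀) hπ
  have hp := (presents_valuation v).comap (algebraMap E₀ E)
  refine ⟨ht₀.ne_top hp, ht₀.isPrincipalIdealRing hp, fun a ha => ?_⟩
  obtain ⟨h1, h2⟩ := hA a ha
  rw [IsScalarTower.algebraMap_apply A E₀ E] at h1 h2
  refine ⟨ValuationSubring.mem_comap.mpr h1, ValuationSubring.mem_comap.mpr ?_⟩
  rw [map_inv₀]
  exact h2

/-- a discreteness witness for a place and one of its uniformisers -/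
theorem discAt_of_isPlace {v : ValuationSubring E} (hv : IsPlace A E v) {t : E}
    (ht : IsUniformiser E v t) : DiscAt v.valuation t := by
  obtain ⟨htop, hpir, -⟩ := hv
  obtain ⟨π, hπ⟩ := exists_discAt (presents_valuation v) htop hpir
  exact hπ.of_isUniformiser (presents_valuation v) ht

omit [Algebra A E] [IsScalarTower A E₀ E] in
/-- discreteness of the restricted valuation at a uniformiser of the restricted place -/
theorem discAt_comap_of_isPlace {v : ValuationSubring E}
    (hv₀ : IsPlace A E₀ (v.comap (algebraMap E₀ E))) {t : E₀}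
    (ht : IsUniformiser E₀ (v.comap (algebraMap E₀ E)) t) :
    DiscAt (v.valuation.comap (algebraMap E₀ E)) t := by
  obtain ⟨htop, hpir, -⟩ := hv₀
  have hp := (presents_valuation v).comap (algebraMap E₀ E)
  obtain ⟨π, hπ⟩ := exists_discAt hp htop hpir
  exact hπ.of_isUniformiser hp ht

omit [IsScalarTower A E₀ E] in
/-- nonzero natural numbers are units at places (characteristic zero) -/
theorem val_natCast_eq_one [CharZero E₀]
    {v : ValuationSubring E} (hA : ∀ a : A, a ≠ 0 →
      algebraMap A E a ∈ v ∧ (algebraMap A E a)⁻¹ ∈ v) (r : ℕ) (hr : r ≠ 0) :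
    v.valuation ((r : ℕ) : E) = 1 := by
  have hrA : ((r : ℕ) : A) ≠ 0 := by
    intro h0
    have h1 := congrArg (algebraMap A E₀) h0
    rw [map_natCast, map_zero] at h1
    exact hr (Nat.cast_eq_zero.mp h1)
  obtain ⟨h1, h2⟩ := hA _ hrA
  rw [map_natCast] at h1 h2
  have hr0 : ((r : ℕ) : E) ≠ 0 := by
    intro h0
    have : algebraMap E₀ E ((r : ℕ) : E₀) = 0 := by rw [map_natCast, h0]
    rw [map_eq_zero] at this
    exact hr (Nat.cast_eq_zero.mp this)
  exact ((presents_valuation v).val_eq_one_iff hr0).mpr ⟨h1, h2⟩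

/-! ### The Kummer situation at one valuation subring -/

/-- In the Kummer situation, a uniformiser of `v ∩ E₀` has the uniformiser property in `v`. -/
theorem kummer_place_unramified (v : ValuationSubring E) {t₀ : E₀}
    (h₀ : DiscAt (v.valuation.comap (algebraMap E₀ E)) t₀)
    (r : ℕ) (hr : r ≠ 0) (hrv : v.valuation ((r : ℕ) : E) = 1)
    (u : E₀) (hu : u ≠ 0) (w : E) (hw : w ^ r = algebraMap E₀ E u)
    (hgen : Algebra.adjoin E₀ ({w} : Set E) = ⊤)
    (hord : OrdDvd E₀ (v.comap (algebraMap E₀ E)) r u) :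
    ∀ z : E, v.valuation z < 1 → v.valuation z ≤ v.valuation (algebraMap E₀ E t₀) := by
  obtain ⟨t, ht, h1, h2⟩ := hord
  have hp := (presents_valuation v).comap (algebraMap E₀ E)
  have hu'0 : u * t ^ r ≠ 0 := mul_ne_zero hu (pow_ne_zero _ ht)
  have hu' : v.valuation (algebraMap E₀ E (u * t ^ r)) = 1 :=
    (hp.val_eq_one_iff hu'0).mpr ⟨h1, h2⟩
  have hw' : (w * algebraMap E₀ E t) ^ r = algebraMap E₀ E (u * t ^ r) := by
    rw [mul_pow, hw, map_mul, map_pow]
  have hwmem : w ∈ Algebra.adjoin E₀ ({w * algebraMap E₀ E t} : Set E) := by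
    have h3 : w = t⁻¹ • (w * algebraMap E₀ E t) := by
      rw [Algebra.smul_def, map_inv₀, mul_comm w, ← mul_assoc,
        inv_mul_cancel₀ ((_root_.map_ne_zero _).mpr ht), one_mul]
    have h4 : t⁻¹ • (w * algebraMap E₀ E t) ∈ Algebra.adjoin E₀ ({w * algebraMap E₀ E t} : Set E) :=
      Subalgebra.smul_mem _ (Algebra.self_mem_adjoin_singleton E₀ (w * algebraMap E₀ E t)) _
    rw [← h3] at h4
    exact h4
  have hgen' : Algebra.adjoin E₀ ({w * algebraMap E₀ E t} : Set E) = ⊤ := by
    rw [eq_top_iff, ← hgen]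
    apply Algebra.adjoin_le
    intro x hx
    rw [Set.mem_singleton_iff] at hx
    rw [hx]
    exact hwmem
  exact kummer_unramified v h₀ r hr hrv _ _ hw' hu' hgen'

/-- transfer of `OrdDvd` from `E` down to `E₀` (common uniformiser) -/
theorem ordDvd_comap (v : ValuationSubring E) {t₀ : E₀}
    (h : DiscAt v.valuation (algebraMap E₀ E t₀))
    (h₀ : DiscAt (v.valuation.comap (algebraMap E₀ E)) t₀) (d : ℕ) (z : E₀)
    (hz : OrdDvd E v d (algebraMap E₀ E z)) :
    OrdDvd E₀ (v.comap (algebraMap E₀ E)) d z := by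
  have hp := (presents_valuation v).comap (algebraMap E₀ E)
  rcases eq_or_ne z 0 with rfl | hz0
  · refine ⟨1, one_ne_zero, ?_, ?_⟩
    · rw [zero_mul]
      exact zero_mem _
    · rw [zero_mul, inv_zero]
      exact zero_mem _
  obtain ⟨t, ht, h1, h2⟩ := hz
  have hzt0 : algebraMap E₀ E z * t ^ d ≠ 0 :=
    mul_ne_zero ((_root_.map_ne_zero _).mpr hz0) (pow_ne_zero _ ht)
  have hval : v.valuation (algebraMap E₀ E z * t ^ d) = 1 :=
    ((presents_valuation v).val_eq_one_iff hzt0).mpr ⟨h1, h2⟩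
  obtain ⟨m, hm⟩ := h₀.2.2 z hz0
  have hm' : v.valuation (algebraMap E₀ E z) = v.valuation (algebraMap E₀ E t₀) ^ m := hm
  obtain ⟨k, hk⟩ := h.2.2 t ht
  rw [map_mul, map_pow, hm', hk, ← zpow_natCast, ← zpow_mul, ← zpow_add₀ h.pos.ne',
    h.zpow_eq_one_iff] at hval
  have ht₀k : t₀ ^ k ≠ 0 := zpow_ne_zero _ h₀.1
  refine ⟨t₀ ^ k, ht₀k, ?_⟩
  have h3 : (v.valuation.comap (algebraMap E₀ E)) (z * (t₀ ^ k) ^ d) = 1 := by
    show v.valuation (algebraMap E₀ E (z * (t₀ ^ k) ^ d)) = 1
    rw [map_mul, map_pow, map_zpow₀, map_mul, map_pow, map_zpow₀, hm', ← zpow_natCast,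
      ← zpow_mul, ← zpow_add₀ h.pos.ne', h.zpow_eq_one_iff]
    exact hval
  exact (hp.val_eq_one_iff (mul_ne_zero hz0 (pow_ne_zero _ ht₀k))).mp h3

omit [Algebra A E] [IsScalarTower A E₀ E] in
/-- a uniformiser of the restricted place is a uniformiser of the place, and the place is
discrete with this uniformiser -/
theorem kummer_discAt [Algebra.IsAlgebraic E₀ E] (v : ValuationSubring E)
    (hv₀ : IsPlace A E₀ (v.comap (algebraMap E₀ E)))
    (r : ℕ) (hr : r ≠ 0) (hrv : v.valuation ((r : ℕ) : E) = 1)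
    (u : E₀) (hu : u ≠ 0) (w : E) (hw : w ^ r = algebraMap E₀ E u)
    (hgen : Algebra.adjoin E₀ ({w} : Set E) = ⊤)
    (hord : OrdDvd E₀ (v.comap (algebraMap E₀ E)) r u)
    {t : E₀} (ht : IsUniformiser E₀ (v.comap (algebraMap E₀ E)) t) :
    DiscAt v.valuation (algebraMap E₀ E t) := by
  have h₀ := discAt_comap_of_isPlace hv₀ ht
  exact discAt_of_comap h₀ (kummer_place_unramified v h₀ r hr hrv u hu w hw hgen hord)

omit [Algebra A E₀] [Algebra A E] [IsScalarTower A E₀ E] [CommRing A] in
/-- existence of a valuation subring of `E` above a valuation subring of `E₀` -/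
theorem exists_comap_eq (v₀ : ValuationSubring E₀) :
    ∃ v : ValuationSubring E, v.comap (algebraMap E₀ E) = v₀ := by
  obtain ⟨v, h, hloc⟩ :=
    IsLocalRing.exists_factor_valuationRing ((algebraMap E₀ E).comp v₀.subtype)
  refine ⟨v, ?_⟩
  ext x
  rw [ValuationSubring.mem_comap]
  constructor
  · intro hx
    by_contra hx₀
    have hx0 : x ≠ 0 := fun h0 => hx₀ (h0 ▸ v₀.zero_mem)
    have hxi : x⁻¹ ∈ v₀ := (v₀.mem_or_inv_mem x).resolve_left hx₀
    have hunit : IsUnit ((((algebraMap E₀ E).comp v₀.subtype).codRestrict v.toSubring h)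
        ⟨x⁻¹, hxi⟩) := by
      rw [isUnit_iff_exists_inv]
      refine ⟨⟨algebraMap E₀ E x, hx⟩, Subtype.ext ?_⟩
      show algebraMap E₀ E x⁻¹ * algebraMap E₀ E x = 1
      rw [← map_mul, inv_mul_cancel₀ hx0, map_one]
    have h2 := hloc.map_nonunit _ hunit
    obtain ⟨y, hy⟩ := isUnit_iff_exists_inv.mp h2
    have h3 : x⁻¹ * (y : E₀) = 1 := congrArg Subtype.val hy
    have h4 : (y : E₀) = x := by
      field_simp at h3
      exact h3
    exact hx₀ (h4 ▸ y.2)
  · intro hx
    exact h ⟨x, hx⟩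

/-- **Places extend**: in the Kummer situation every place of `E₀` is the restriction of a
place of `E`. -/
theorem exists_place_above [Algebra.IsAlgebraic E₀ E] [CharZero E₀] {v₀ : ValuationSubring E₀}
    (hv₀ : IsPlace A E₀ v₀)
    (r : ℕ) (hr : r ≠ 0)
    (u : E₀) (hu : u ≠ 0) (w : E) (hw : w ^ r = algebraMap E₀ E u)
    (hgen : Algebra.adjoin E₀ ({w} : Set E) = ⊤)
    (hord : OrdDvd E₀ v₀ r u) :
    ∃ v : ValuationSubring E, v.comap (algebraMap E₀ E) = v₀ ∧ IsPlace A E v := by
  obtain ⟨v, hvv₀⟩ := exists_comap_eq (E := E) v₀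
  subst hvv₀
  refine ⟨v, rfl, ?_⟩
  have hA : ∀ a : A, a ≠ 0 → algebraMap A E a ∈ v ∧ (algebraMap A E a)⁻¹ ∈ v := by
    intro a ha
    obtain ⟨h1, h2⟩ := hv₀.2.2 a ha
    rw [ValuationSubring.mem_comap] at h1 h2
    rw [map_inv₀] at h2
    rw [IsScalarTower.algebraMap_apply A E₀ E]
    exact ⟨h1, h2⟩
  have hrv := val_natCast_eq_one (E₀ := E₀) hA r hr
  obtain ⟨t, ht⟩ := exists_discAt ((presents_valuation v).comap (algebraMap E₀ E))
    hv₀.1 hv₀.2.1
  have htu := ht.isUniformiser ((presents_valuation v).comap (algebraMap E₀ E))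
  have hd := kummer_discAt v hv₀ r hr hrv u hu w hw hgen hord htu
  exact ⟨hd.ne_top (presents_valuation v), hd.isPrincipalIdealRing (presents_valuation v), hA⟩

/-! ### Transfer of the chart data -/

/-- the chart field of `E₀` maps into the chart field of `E` -/
theorem map_mem_chartField (y : E₀) {t : E₀} (ht : t ∈ chartField A E₀ y) :
    algebraMap E₀ E t ∈ chartField A E (algebraMap E₀ E y) := by
  have h1 : algebraMap E₀ E t ∈ (chartField A E₀ y).map (algebraMap E₀ E) :=
    Subfield.mem_map.mpr ⟨t, ht, rfl⟩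
  rw [chartField, RingHom.map_field_closure] at h1
  refine Subfield.closure_mono ?_ h1
  rintro _ ⟨z, hz, rfl⟩
  have h2 : (IsScalarTower.toAlgHom A E₀ E) z ∈
      (Algebra.adjoin A ({y} : Set E₀)).map (IsScalarTower.toAlgHom A E₀ E) :=
    ⟨z, hz, rfl⟩
  rw [AlgHom.map_adjoin, Set.image_singleton] at h2
  exact h2

/-- `InDisc` passes to the restricted place -/
theorem inDisc_comap (ϖ : A) (y : E₀) (g : A[X]) (v : ValuationSubring E)
    (h : InDisc A E ϖ (algebraMap E₀ E y) g v) :
    InDisc A E₀ ϖ y g (v.comap (algebraMap E₀ E)) := by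
  intro p hp
  apply h p
  rw [mem_nonunits_comap, ← aeval_algebraMap_apply] at hp
  exact hp

/-- finite places restrict to finite places -/
theorem isFinitePlace_comap [Algebra.IsAlgebraic E₀ E] (y : E₀) {v : ValuationSubring E}
    (h : IsFinitePlace A E (algebraMap E₀ E y) v) :
    IsFinitePlace A E₀ y (v.comap (algebraMap E₀ E)) :=
  ⟨isPlace_comap h.1, ValuationSubring.mem_comap.mpr h.2⟩

/-! ### The statement -/

/-- **KL-K-3**: the branch hypothesis passes from `E₀` to the unramified Kummer extension. -/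
theorem kummerBranchStatement : KummerBranchStatement := by
  intro A _ _ _ E₀ E _ _ _ _ _ _ _ _ ϖ _ x _ r hr u w hw hgen hfin hu hord y g _ hB
  have hfd : FiniteDimensional E₀ E :=
    Module.finite_of_finrank_pos (by rw [hfin]; exact hr.pos)
  have halg : Algebra.IsAlgebraic E₀ E := Algebra.IsAlgebraic.of_finite E₀ E
  -- uniformisers transfer
  have key : ∀ v : ValuationSubring E, IsPlace A E v → ∀ t : E₀,
      IsUniformiser E₀ (v.comap (algebraMap E₀ E)) t →
      DiscAt v.valuation (algebraMap E₀ E t) := by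
    intro v hv t ht
    have hv₀ : IsPlace A E₀ (v.comap (algebraMap E₀ E)) := isPlace_comap hv
    have hrv := val_natCast_eq_one (E₀ := E₀) hv.2.2 r hr.ne_zero
    exact kummer_discAt v hv₀ r hr.ne_zero hrv u hu w hw hgen (hord _ hv₀) ht
  rcases hB with hU | ⟨c, e, hg, he, heu, hζ, hT, hplace⟩
  · left
    intro v hvfin hvdisc
    obtain ⟨t, htmem, ht⟩ := hU (v.comap (algebraMap E₀ E)) (isFinitePlace_comap y hvfin)
      (inDisc_comap ϖ y g v hvdisc)
    exact ⟨algebraMap E₀ E t, map_mem_chartField y htmem,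
      (key v hvfin.1 t ht).isUniformiser (presents_valuation v)⟩
  · right
    refine ⟨c, e, hg, he, heu, hζ, ?_, ?_⟩
    · intro v hvfin hvdisc
      obtain ⟨h1, h2⟩ := hT (v.comap (algebraMap E₀ E)) (isFinitePlace_comap y hvfin)
        (inDisc_comap ϖ y _ v hvdisc)
      have hsub : algebraMap E₀ E y - algebraMap A E c
          = algebraMap E₀ E (y - algebraMap A E₀ c) := by
        rw [map_sub, ← IsScalarTower.algebraMap_apply]
      constructor
      · intro hnon
        obtain ⟨t, htmem, ht⟩ := h1 (by rw [mem_nonunits_comap, ← hsub]; exact hnon)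
        exact ⟨algebraMap E₀ E t, map_mem_chartField y htmem,
          (key v hvfin.1 t ht).isUniformiser (presents_valuation v)⟩
      · intro hmem
        obtain ⟨t, ht, n, hn, h3, h4⟩ := h2 (by rw [mem_nonunits_comap, ← hsub]; exact hmem)
        refine ⟨algebraMap E₀ E t, (key v hvfin.1 t ht).isUniformiser (presents_valuation v),
          n, hn, ?_, ?_⟩
        · rw [hsub, ← map_pow, ← map_div₀]
          exact ValuationSubring.mem_comap.mp h3
        · rw [hsub, ← map_pow, ← map_div₀]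
          exact ValuationSubring.mem_comap.mp h4
    · intro d hd hde
      obtain ⟨v₀, hv₀, hnot⟩ := hplace d hd hde
      obtain ⟨v, rfl, hv⟩ := exists_place_above hv₀ r hr.ne_zero u hu w hw hgen (hord v₀ hv₀)
      refine ⟨v, hv, fun hO => hnot ?_⟩
      obtain ⟨t, ht⟩ := exists_discAt ((presents_valuation v).comap (algebraMap E₀ E))
        hv₀.1 hv₀.2.1
      have htu := ht.isUniformiser ((presents_valuation v).comap (algebraMap E₀ E))
      have hd' := key v hv t htu
      apply ordDvd_comap v hd' ht d (y - algebraMap A E₀ c)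
      rw [map_sub, ← IsScalarTower.algebraMap_apply]
      exact hO

end Fermat.Agent.H88.KLB
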