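import Fermat.Agent.H88.KL.ValRestrict

/-!
# P-ES row KL-K-3 (helper88), part 3: a Kummer extension `E = E₀(w')`, `w' ^ r = u'` with `u'`
and `r` units at a discrete valuation ring `v₀` of `E₀` is unramified at every valuation
subring `v` of `E` above `v₀`: a uniformiser of `v₀` is a uniformiser of `v`.
-/

set_option autoImplicit false
set_option maxSynthPendingDepth 3

noncomputable section

namespace Fermat.Agent.H88.KLB

open Fermat.Agent.H22.KL Polynomial

variable {E₀ E : Type} [Field E₀] [Field E] [Algebra E₀ E]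

section Incl

variable (E₀) (v : ValuationSubring E)

/-- the inclusion `v ∩ E₀ → v` -/
def incl : ↥(v.comap (algebraMap E₀ E)) →+* ↥v where
  toFun x := ⟨algebraMap E₀ E x, x.2⟩
  map_one' := Subtype.ext (map_one _)
  map_mul' _ _ := Subtype.ext (map_mul _ _ _)
  map_zero' := Subtype.ext (map_zero _)
  map_add' _ _ := Subtype.ext (map_add _ _ _)

@[simp] theorem coe_incl (x : ↥(v.comap (algebraMap E₀ E))) :
    ((incl E₀ v x : ↥v) : E) = algebraMap E₀ E (x : E₀) := rfl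

theorem isUnit_iff_val (x : ↥v) : IsUnit x ↔ v.valuation (x : E) = 1 :=
  v.valuation_eq_one_iff x

theorem isUnit_comap_iff_val (x : ↥(v.comap (algebraMap E₀ E))) :
    IsUnit x ↔ v.valuation (algebraMap E₀ E (x : E₀)) = 1 := by
  have hp : Presents (v.comap (algebraMap E₀ E)) (v.valuation.comap (algebraMap E₀ E)) :=
    (presents_valuation v).comap _
  constructor
  · intro hx
    obtain ⟨u, rfl⟩ := hx
    exact val_unit hp u
  · intro hx
    obtain ⟨u, hu⟩ := exists_unit_of_val_eq_one hp (x := (x : E₀)) hx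
    have : (u : ↥(v.comap (algebraMap E₀ E))) = x := Subtype.ext hu
    rw [← this]
    exact u.isUnit

instance instIsLocalHomIncl : IsLocalHom (incl E₀ v) where
  map_nonunit x hx := by
    rw [isUnit_iff_val] at hx
    rw [isUnit_comap_iff_val]
    exact hx

end Incl

/-- the maximal ideal of `v ∩ E₀` is generated by a uniformiser -/
theorem dvd_of_residue_eq_zero (v : ValuationSubring E) {t₀ : E₀}
    (h₀ : DiscAt (v.valuation.comap (algebraMap E₀ E)) t₀)
    (ht₀ : t₀ ∈ v.comap (algebraMap E₀ E))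
    (y : ↥(v.comap (algebraMap E₀ E)))
    (hy : IsLocalRing.residue _ y = 0) :
    (⟨t₀, ht₀⟩ : ↥(v.comap (algebraMap E₀ E))) ∣ y := by
  have hp : Presents (v.comap (algebraMap E₀ E)) (v.valuation.comap (algebraMap E₀ E)) :=
    (presents_valuation v).comap _
  rw [IsLocalRing.residue_eq_zero_iff, IsLocalRing.mem_maximalIdeal, mem_nonunits_iff,
    isUnit_comap_iff_val] at hy
  have hy1 : (v.valuation.comap (algebraMap E₀ E)) (y : E₀) < 1 :=
    lt_of_le_of_ne ((hp _).mp y.2) hy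
  have hle := h₀.le_of_lt_one hy1
  have hmem : (y : E₀) / t₀ ∈ v.comap (algebraMap E₀ E) := by
    rw [hp, map_div₀]
    exact div_le_one_of_le₀ hle zero_le
  refine ⟨⟨(y : E₀) / t₀, hmem⟩, Subtype.ext ?_⟩
  show (y : E₀) = t₀ * ((y : E₀) / t₀)
  rw [mul_div_cancel₀ _ h₀.1]

/-- a polynomial over `v ∩ E₀` that vanishes modulo the maximal ideal is divisible by a
uniformiser -/
theorem C_dvd_of_map_eq_zero (v : ValuationSubring E) {t₀ : E₀}
    (h₀ : DiscAt (v.valuation.comap (algebraMap E₀ E)) t₀)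
    (ht₀ : t₀ ∈ v.comap (algebraMap E₀ E))
    (G : Polynomial ↥(v.comap (algebraMap E₀ E)))
    (hG : G.map (IsLocalRing.residue _) = 0) :
    C (⟨t₀, ht₀⟩ : ↥(v.comap (algebraMap E₀ E))) ∣ G := by
  rw [Polynomial.C_dvd_iff_dvd_coeff]
  intro i
  apply dvd_of_residue_eq_zero v h₀ ht₀
  have := congrArg (fun p => Polynomial.coeff p i) hG
  simpa using this

/-- **Key step**: in the Kummer situation, a polynomial expression `P(w')` over `v ∩ E₀` of
value `< 1` becomes divisible by the uniformiser `t₀` after multiplication by a unit `H(w')`. -/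
theorem kummer_key (v : ValuationSubring E) {t₀ : E₀}
    (h₀ : DiscAt (v.valuation.comap (algebraMap E₀ E)) t₀)
    (r : ℕ) (hrv : v.valuation ((r : ℕ) : E) = 1)
    (u' : E₀) (w' : E) (hw' : w' ^ r = algebraMap E₀ E u')
    (hu' : v.valuation (algebraMap E₀ E u') = 1) (hw'v : w' ∈ v)
    (P : Polynomial ↥(v.comap (algebraMap E₀ E)))
    (hP : v.valuation ((eval₂ (incl E₀ v) (⟨w', hw'v⟩ : ↥v) P : ↥v) : E) < 1) :
    ∃ H P1 : Polynomial ↥(v.comap (algebraMap E₀ E)),
      v.valuation ((eval₂ (incl E₀ v) (⟨w', hw'v⟩ : ↥v) H : ↥v) : E) = 1 ∧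
      ((eval₂ (incl E₀ v) (⟨w', hw'v⟩ : ↥v) H : ↥v) : E)
        * ((eval₂ (incl E₀ v) (⟨w', hw'v⟩ : ↥v) P : ↥v) : E)
        = algebraMap E₀ E t₀ * ((eval₂ (incl E₀ v) (⟨w', hw'v⟩ : ↥v) P1 : ↥v) : E) := by
  classical
  have hp : Presents (v.comap (algebraMap E₀ E)) (v.valuation.comap (algebraMap E₀ E)) :=
    (presents_valuation v).comap _
  have ht₀ : t₀ ∈ v.comap (algebraMap E₀ E) := (hp _).mpr h₀.2.1.le
  have hu'mem : u' ∈ v.comap (algebraMap E₀ E) := (hp _).mpr hu'.le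
  set R₀ := ↥(v.comap (algebraMap E₀ E)) with hR₀
  set wv : ↥v := ⟨w', hw'v⟩ with hwv
  set uv : R₀ := ⟨u', hu'mem⟩ with huv
  set ρ₀ := IsLocalRing.residue R₀ with hρ₀
  set ρ := IsLocalRing.residue ↥v with hρ
  set j := IsLocalRing.ResidueField.map (incl E₀ v) with hj
  set wb := ρ wv with hwb
  -- the evaluation at the residue class of `w'`
  have hev : ∀ Q : Polynomial R₀, ρ (eval₂ (incl E₀ v) wv Q) = eval₂ j wb (Q.map ρ₀) := by
    intro Q
    rw [Polynomial.eval₂_map, Polynomial.hom_eval₂]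
    have hcomp : ρ.comp (incl E₀ v) = j.comp ρ₀ := by
      ext x
      exact (IsLocalRing.ResidueField.map_residue (incl E₀ v) x).symm
    rw [hcomp]
  -- the Kummer polynomial
  set f : Polynomial R₀ := X ^ r - C uv with hf
  have hfroot : eval₂ (incl E₀ v) wv f = 0 := by
    rw [hf, eval₂_sub, eval₂_pow, eval₂_X, eval₂_C]
    apply Subtype.ext
    show w' ^ r - algebraMap E₀ E u' = 0
    rw [hw', sub_self]
  have hfmap : f.map ρ₀ = X ^ r - C (ρ₀ uv) := by
    rw [hf, Polynomial.map_sub, Polynomial.map_pow, Polynomial.map_X, Polynomial.map_C]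
  have hr0 : ((r : ℕ) : IsLocalRing.ResidueField R₀) ≠ 0 := by
    have h1 : IsUnit ((r : ℕ) : R₀) := by
      rw [isUnit_comap_iff_val]
      have : algebraMap E₀ E (((r : ℕ) : R₀) : E₀) = ((r : ℕ) : E) := by
        show algebraMap E₀ E ((r : ℕ) : E₀) = ((r : ℕ) : E)
        exact map_natCast _ _
      rw [this]
      exact hrv
    have h2 := (IsLocalRing.residue_ne_zero_iff_isUnit _).mpr h1
    rwa [map_natCast] at h2
  have hu0 : ρ₀ uv ≠ 0 := by
    rw [hρ₀, IsLocalRing.residue_ne_zero_iff_isUnit, isUnit_comap_iff_val]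
    exact hu'
  have hsep : (f.map ρ₀).Separable := by
    rw [hfmap]
    exact separable_X_pow_sub_C _ hr0 hu0
  -- the two polynomials vanish at `wb`
  have hPb : eval₂ j wb (P.map ρ₀) = 0 := by
    rw [← hev, hρ, IsLocalRing.residue_eq_zero_iff, ValuationSubring.valuation_lt_one_iff]
    exact hP
  have hfb : eval₂ j wb (f.map ρ₀) = 0 := by
    rw [← hev, hfroot, map_zero]
  -- the gcd
  set D := EuclideanDomain.gcd (P.map ρ₀) (f.map ρ₀) with hD
  obtain ⟨Qb, hQb⟩ := EuclideanDomain.gcd_dvd_left (P.map ρ₀) (f.map ρ₀)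
  obtain ⟨Hb, hHb⟩ := EuclideanDomain.gcd_dvd_right (P.map ρ₀) (f.map ρ₀)
  have hDb : eval₂ j wb D = 0 := by
    rw [hD, EuclideanDomain.gcd_eq_gcd_ab, eval₂_add, eval₂_mul, eval₂_mul, hPb, hfb, zero_mul,
      zero_mul, add_zero]
  have hcop : IsCoprime D Hb := by
    apply Polynomial.Separable.isCoprime
    rw [← hD] at hHb
    rw [← hHb]
    exact hsep
  have hHb0 : eval₂ j wb Hb ≠ 0 := by
    obtain ⟨a, b, hab⟩ := hcop
    intro h0
    have := congrArg (eval₂ j wb) hab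
    rw [eval₂_add, eval₂_mul, eval₂_mul, hDb, h0, mul_zero, mul_zero, add_zero, eval₂_one] at this
    exact zero_ne_one this
  -- lifts
  obtain ⟨H, hH⟩ := Polynomial.map_surjective ρ₀ IsLocalRing.residue_surjective Hb
  obtain ⟨Q, hQ⟩ := Polynomial.map_surjective ρ₀ IsLocalRing.residue_surjective Qb
  have hG : (H * P - f * Q).map ρ₀ = 0 := by
    rw [Polynomial.map_sub, Polynomial.map_mul, Polynomial.map_mul, hH, hQ]
    rw [← hD] at hQb hHb
    rw [hHb]
    nth_rewrite 1 [hQb]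
    ring
  obtain ⟨P1, hP1⟩ := C_dvd_of_map_eq_zero v h₀ ht₀ _ hG
  refine ⟨H, P1, ?_, ?_⟩
  · rw [← isUnit_iff_val, ← IsLocalRing.residue_ne_zero_iff_isUnit]
    show ρ (eval₂ (incl E₀ v) wv H) ≠ 0
    rw [hev, hH]
    exact hHb0
  · have h1 := congrArg (eval₂ (incl E₀ v) wv) hP1
    rw [eval₂_sub, eval₂_mul, eval₂_mul, hfroot, zero_mul, sub_zero, eval₂_mul, eval₂_C] at h1
    have h2 := congrArg (Subtype.val : ↥v → E) h1
    simpa using h2

theorem val_eq_one_of_pow {Γ : Type*} [LinearOrderedCommGroupWithZero Γ] {a : Γ} {n : ℕ}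
    (hn : n ≠ 0) (h : a ^ n = 1) : a = 1 := by
  rcases lt_trichotomy a 1 with h1 | h1 | h1
  · exact absurd h (pow_lt_one₀ zero_le h1 hn).ne
  · exact h1
  · exact absurd h (one_lt_pow₀ h1 hn).ne'

/-- induction on the power of `t₀` in the denominator -/
theorem kummer_le_aux (v : ValuationSubring E) {t₀ : E₀}
    (h₀ : DiscAt (v.valuation.comap (algebraMap E₀ E)) t₀)
    (r : ℕ) (hrv : v.valuation ((r : ℕ) : E) = 1)
    (u' : E₀) (w' : E) (hw' : w' ^ r = algebraMap E₀ E u')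
    (hu' : v.valuation (algebraMap E₀ E u') = 1) (hw'v : w' ∈ v) :
    ∀ (n : ℕ) (z : E) (σ P : Polynomial ↥(v.comap (algebraMap E₀ E))),
      v.valuation ((eval₂ (incl E₀ v) (⟨w', hw'v⟩ : ↥v) σ : ↥v) : E) = 1 →
      z * algebraMap E₀ E t₀ ^ n * ((eval₂ (incl E₀ v) (⟨w', hw'v⟩ : ↥v) σ : ↥v) : E)
        = ((eval₂ (incl E₀ v) (⟨w', hw'v⟩ : ↥v) P : ↥v) : E) →
      v.valuation z < 1 → v.valuation z ≤ v.valuation (algebraMap E₀ E t₀) := by
  have hτ1 : v.valuation (algebraMap E₀ E t₀) < 1 := h₀.2.1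
  have hτ0 : 0 < v.valuation (algebraMap E₀ E t₀) := h₀.pos
  have ht0 : algebraMap E₀ E t₀ ≠ 0 := (_root_.map_ne_zero _).mpr h₀.1
  intro n
  induction n with
  | zero =>
    intro z σ P hσ hz hz1
    rw [pow_zero, mul_one] at hz
    have hP : v.valuation ((eval₂ (incl E₀ v) (⟨w', hw'v⟩ : ↥v) P : ↥v) : E) < 1 := by
      rw [← hz, map_mul, hσ, mul_one]
      exact hz1
    obtain ⟨H, P1, hH, hHP⟩ := kummer_key v h₀ r hrv u' w' hw' hu' hw'v P hP
    have h1 := congrArg v.valuation hHP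
    rw [map_mul, map_mul, hH, one_mul, ← hz, map_mul, hσ, mul_one] at h1
    rw [h1]
    calc v.valuation (algebraMap E₀ E t₀) * v.valuation _
        ≤ v.valuation (algebraMap E₀ E t₀) * 1 := by
          gcongr
          exact (v.valuation_le_one_iff _).mpr (Subtype.property _)
      _ = v.valuation (algebraMap E₀ E t₀) := mul_one _
  | succ n ih =>
    intro z σ P hσ hz hz1
    have hP : v.valuation ((eval₂ (incl E₀ v) (⟨w', hw'v⟩ : ↥v) P : ↥v) : E) < 1 := by
      rw [← hz, map_mul, hσ, mul_one, map_mul, map_pow]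
      calc v.valuation z * v.valuation (algebraMap E₀ E t₀) ^ (n + 1)
          ≤ v.valuation z * 1 := by
            gcongr
            exact pow_le_one₀ zero_le hτ1.le
        _ = v.valuation z := mul_one _
        _ < 1 := hz1
    obtain ⟨H, P1, hH, hHP⟩ := kummer_key v h₀ r hrv u' w' hw' hu' hw'v P hP
    apply ih z (σ * H) P1
    · rw [eval₂_mul, MulMemClass.coe_mul, map_mul, hσ, hH, one_mul]
    · rw [eval₂_mul, MulMemClass.coe_mul]
      apply mul_left_cancel₀ ht0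
      rw [← hHP, ← hz]
      ring
    · exact hz1

/-- every element of `E = E₀[w']` is a polynomial in `w'` over `v ∩ E₀` divided by a power
of the uniformiser -/
theorem kummer_repr (v : ValuationSubring E) {t₀ : E₀}
    (h₀ : DiscAt (v.valuation.comap (algebraMap E₀ E)) t₀)
    (w' : E) (hw'v : w' ∈ v) (hgen : Algebra.adjoin E₀ ({w'} : Set E) = ⊤) (z : E) :
    ∃ (n : ℕ) (P : Polynomial ↥(v.comap (algebraMap E₀ E))),
      z * algebraMap E₀ E t₀ ^ n = ((eval₂ (incl E₀ v) (⟨w', hw'v⟩ : ↥v) P : ↥v) : E) := by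
  have hp : Presents (v.comap (algebraMap E₀ E)) (v.valuation.comap (algebraMap E₀ E)) :=
    (presents_valuation v).comap _
  have ht₀ : t₀ ∈ v.comap (algebraMap E₀ E) := (hp _).mpr h₀.2.1.le
  have hz : z ∈ Algebra.adjoin E₀ ({w'} : Set E) := hgen ▸ Algebra.mem_top
  induction hz using Algebra.adjoin_induction with
  | mem x hx =>
    rw [Set.mem_singleton_iff] at hx
    subst hx
    exact ⟨0, X, by rw [pow_zero, mul_one, eval₂_X]⟩
  | algebraMap c =>
    rcases eq_or_ne c 0 with rfl | hc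
    · exact ⟨0, 0, by rw [map_zero, zero_mul, eval₂_zero]; rfl⟩
    · obtain ⟨k, hk⟩ := h₀.2.2 c hc
      have hmem : c * t₀ ^ (-k).toNat ∈ v.comap (algebraMap E₀ E) := by
        rw [hp, map_mul, map_pow, hk, ← zpow_natCast, ← zpow_add₀ h₀.pos.ne', h₀.zpow_le_one_iff]
        have := Int.self_le_toNat (-k)
        omega
      refine ⟨(-k).toNat, C ⟨c * t₀ ^ (-k).toNat, hmem⟩, ?_⟩
      rw [eval₂_C]
      show _ = algebraMap E₀ E (c * t₀ ^ (-k).toNat)
      rw [map_mul, map_pow]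
  | add x y _ _ hx hy =>
    obtain ⟨n₁, P₁, h₁⟩ := hx
    obtain ⟨n₂, P₂, h₂⟩ := hy
    refine ⟨n₁ + n₂, P₁ * C (⟨t₀, ht₀⟩ ^ n₂) + P₂ * C (⟨t₀, ht₀⟩ ^ n₁), ?_⟩
    rw [eval₂_add, eval₂_mul, eval₂_mul, eval₂_C, eval₂_C]
    show _ = ((eval₂ (incl E₀ v) (⟨w', hw'v⟩ : ↥v) P₁ : ↥v) : E) * algebraMap E₀ E (t₀ ^ n₂)
      + ((eval₂ (incl E₀ v) (⟨w', hw'v⟩ : ↥v) P₂ : ↥v) : E) * algebraMap E₀ E (t₀ ^ n₁)
    rw [← h₁, ← h₂, map_pow, map_pow]
    ring
  | mul x y _ _ hx hy =>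
    obtain ⟨n₁, P₁, h₁⟩ := hx
    obtain ⟨n₂, P₂, h₂⟩ := hy
    refine ⟨n₁ + n₂, P₁ * P₂, ?_⟩
    rw [eval₂_mul, MulMemClass.coe_mul, ← h₁, ← h₂]
    ring

/-- **Unramifiedness of the Kummer extension**: a uniformiser `t₀` of `v ∩ E₀` has the
uniformiser property in `v`. -/
theorem kummer_unramified (v : ValuationSubring E) {t₀ : E₀}
    (h₀ : DiscAt (v.valuation.comap (algebraMap E₀ E)) t₀)
    (r : ℕ) (hr : r ≠ 0) (hrv : v.valuation ((r : ℕ) : E) = 1)
    (u' : E₀) (w' : E) (hw' : w' ^ r = algebraMap E₀ E u')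
    (hu' : v.valuation (algebraMap E₀ E u') = 1)
    (hgen : Algebra.adjoin E₀ ({w'} : Set E) = ⊤) :
    ∀ z : E, v.valuation z < 1 → v.valuation z ≤ v.valuation (algebraMap E₀ E t₀) := by
  have hw'v : w' ∈ v := by
    rw [← v.valuation_le_one_iff]
    have h1 : v.valuation w' ^ r = 1 := by rw [← map_pow, hw', hu']
    exact (val_eq_one_of_pow hr h1).le
  intro z hz
  obtain ⟨n, P, hP⟩ := kummer_repr v h₀ w' hw'v hgen z
  refine kummer_le_aux v h₀ r hrv u' w' hw' hu' hw'v n z 1 P ?_ ?_ hz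
  · rw [eval₂_one]
    show v.valuation (1 : E) = 1
    exact map_one _
  · rw [eval₂_one]
    show z * algebraMap E₀ E t₀ ^ n * (1 : E) = _
    rw [mul_one, hP]

end Fermat.Agent.H88.KLB
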