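import Fermat.Agent.H88.KL.ValBasic

/-!
# P-ES row KL-K-3 (helper88), part 2: restriction of a discrete valuation to a subfield
over which the field is algebraic; algebraic elements are not infinitesimal.
-/

set_option autoImplicit false
set_option maxSynthPendingDepth 3

noncomputable section

namespace Fermat.Agent.H88.KLB

open Fermat.Agent.H22.KL Polynomial

variable {E₀ E : Type} [Field E₀] [Field E] [Algebra E₀ E]
variable {Γ : Type*} [LinearOrderedCommGroupWithZero Γ]

/-- **Algebraic elements are not infinitesimal**: if `z ≠ 0` is algebraic over `E₀` then some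
positive power of `z` has value at least the value of a nonzero element of `E₀`. -/
theorem exists_le_pow_of_isAlgebraic (val : Valuation E Γ) {z : E} (hz : z ≠ 0)
    (halg : IsAlgebraic E₀ z) :
    ∃ (i : ℕ) (y : E₀), 0 < i ∧ y ≠ 0 ∧ val (algebraMap E₀ E y) ≤ val z ^ i := by
  by_contra hcon
  push Not at hcon
  have hint : IsIntegral E₀ z := halg.isIntegral
  set p := minpoly E₀ z with hp
  have hc0 : p.coeff 0 ≠ 0 := minpoly.coeff_zero_ne_zero hint hz
  have hroot : aeval z p = 0 := minpoly.aeval E₀ z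
  rw [aeval_eq_sum_range, Finset.sum_range_succ'] at hroot
  simp only [pow_zero, Algebra.smul_def, mul_one] at hroot
  have hg : val (algebraMap E₀ E (p.coeff 0)) ≠ 0 :=
    (Valuation.ne_zero_iff _).mpr ((_root_.map_ne_zero _).mpr hc0)
  have hlt : val (∑ i ∈ Finset.range p.natDegree, algebraMap E₀ E (p.coeff (i + 1)) * z ^ (i + 1))
      < val (algebraMap E₀ E (p.coeff 0)) := by
    apply Valuation.map_sum_lt _ hg
    intro i _
    rcases eq_or_ne (p.coeff (i + 1)) 0 with h0 | h0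
    · rw [h0, map_zero, zero_mul, map_zero]
      exact zero_lt_iff.mpr hg
    · have h1 := hcon (i + 1) (p.coeff 0 / p.coeff (i + 1)) (Nat.succ_pos i)
        (div_ne_zero hc0 h0)
      rw [map_div₀, map_div₀] at h1
      have hpos : 0 < val (algebraMap E₀ E (p.coeff (i + 1))) :=
        zero_lt_iff.mpr ((Valuation.ne_zero_iff _).mpr ((_root_.map_ne_zero _).mpr h0))
      rw [map_mul, map_pow]
      rw [lt_div_iff₀ hpos] at h1
      rwa [mul_comm]
  have heq : algebraMap E₀ E (p.coeff 0)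
      = - ∑ i ∈ Finset.range p.natDegree, algebraMap E₀ E (p.coeff (i + 1)) * z ^ (i + 1) := by
    rw [eq_neg_iff_add_eq_zero, add_comm]
    exact hroot
  rw [heq, Valuation.map_neg] at hlt
  exact lt_irrefl _ hlt

/-- a discrete valuation restricts nontrivially to a subfield over which `E` is algebraic -/
theorem exists_val_lt_one [Algebra.IsAlgebraic E₀ E] {val : Valuation E Γ} {π : E}
    (h : DiscAt val π) : ∃ y : E₀, y ≠ 0 ∧ val (algebraMap E₀ E y) < 1 := by
  obtain ⟨i, y, hi, hy, hle⟩ := exists_le_pow_of_isAlgebraic (E₀ := E₀) val h.1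
    (Algebra.IsAlgebraic.isAlgebraic π)
  refine ⟨y, hy, lt_of_le_of_lt hle ?_⟩
  exact pow_lt_one₀ zero_le h.2.1 hi.ne'

/-- **Restriction**: a discrete valuation on `E` restricts to a discrete valuation on a
subfield `E₀` over which `E` is algebraic. -/
theorem exists_discAt_comap [Algebra.IsAlgebraic E₀ E] {val : Valuation E Γ} {π : E}
    (h : DiscAt val π) : ∃ t₀ : E₀, DiscAt (val.comap (algebraMap E₀ E)) t₀ := by
  classical
  have hex : ∃ n : ℕ, 0 < n ∧ ∃ y : E₀, y ≠ 0 ∧ val (algebraMap E₀ E y) = val π ^ n := by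
    obtain ⟨y, hy0, hy1⟩ := exists_val_lt_one (E₀ := E₀) h
    obtain ⟨k, hk⟩ := h.2.2 (algebraMap E₀ E y) ((_root_.map_ne_zero _).mpr hy0)
    have hk1 : 0 < k := by
      rw [← h.zpow_lt_one_iff, ← hk]
      exact hy1
    obtain ⟨n, rfl⟩ := Int.eq_ofNat_of_zero_le hk1.le
    refine ⟨n, by exact_mod_cast hk1, y, hy0, ?_⟩
    rw [hk, zpow_natCast]
  set k₀ := Nat.find hex with hk₀
  obtain ⟨hk₀pos, t₀, ht₀, hval⟩ := Nat.find_spec hex
  have hmin : ∀ n : ℕ, n < k₀ → ¬ (0 < n ∧ ∃ y : E₀, y ≠ 0 ∧ val (algebraMap E₀ E y) = val π ^ n) :=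
    fun n hn => Nat.find_min hex hn
  refine ⟨t₀, ht₀, ?_, fun z hz => ?_⟩
  · show val (algebraMap E₀ E t₀) < 1
    rw [hval]
    exact pow_lt_one₀ zero_le h.2.1 hk₀pos.ne'
  · obtain ⟨m, hm⟩ := h.2.2 (algebraMap E₀ E z) ((_root_.map_ne_zero _).mpr hz)
    refine ⟨m / (k₀ : ℤ), ?_⟩
    show val (algebraMap E₀ E z) = val (algebraMap E₀ E t₀) ^ (m / (k₀ : ℤ))
    have hk₀' : (0 : ℤ) < (k₀ : ℤ) := by exact_mod_cast hk₀pos
    have hs0 : 0 ≤ m % (k₀ : ℤ) := Int.emod_nonneg _ hk₀'.ne'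
    have hs1 : m % (k₀ : ℤ) < (k₀ : ℤ) := Int.emod_lt_of_pos _ hk₀'
    have hdiv : (k₀ : ℤ) * (m / (k₀ : ℤ)) + m % (k₀ : ℤ) = m := Int.mul_ediv_add_emod m k₀
    obtain ⟨s, hs⟩ := Int.eq_ofNat_of_zero_le hs0
    have hz' : val (algebraMap E₀ E (z / t₀ ^ (m / (k₀ : ℤ)))) = val π ^ s := by
      rw [map_div₀, map_zpow₀, map_div₀, map_zpow₀, hval, hm, ← zpow_natCast (val π) k₀,
        ← zpow_mul, ← zpow_sub₀ h.pos.ne', ← zpow_natCast (val π) s, ← hs]
      congr 1
      omega
    have hs_zero : s = 0 := by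
      by_contra hne
      have hslt : s < k₀ := by
        have : (s : ℤ) < (k₀ : ℤ) := hs ▸ hs1
        exact_mod_cast this
      exact hmin s hslt ⟨Nat.pos_of_ne_zero hne, _,
        div_ne_zero hz (zpow_ne_zero _ ht₀), hz'⟩
    have hm' : m = (k₀ : ℤ) * (m / (k₀ : ℤ)) := by
      rw [hs_zero] at hs
      omega
    rw [hval, hm, ← zpow_natCast (val π) k₀, ← zpow_mul, ← hm']

/-- **Extension is discrete**: if `val ∘ ι` is discrete with uniformiser `t₀` and `ι t₀` has
the uniformiser property for `val`, then `val` is discrete with uniformiser `ι t₀`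
(`E / E₀` algebraic). -/
theorem discAt_of_comap [Algebra.IsAlgebraic E₀ E] {val : Valuation E Γ} {t₀ : E₀}
    (h₀ : DiscAt (val.comap (algebraMap E₀ E)) t₀)
    (hunif : ∀ z : E, val z < 1 → val z ≤ val (algebraMap E₀ E t₀)) :
    DiscAt val (algebraMap E₀ E t₀) := by
  have hτ1 : val (algebraMap E₀ E t₀) < 1 := h₀.2.1
  have hτ0 : 0 < val (algebraMap E₀ E t₀) := h₀.pos
  have ht0 : algebraMap E₀ E t₀ ≠ 0 := (_root_.map_ne_zero _).mpr h₀.1
  -- the case `val z ≤ 1`
  have key : ∀ z : E, z ≠ 0 → val z ≤ 1 → ∃ k : ℕ, val z = val (algebraMap E₀ E t₀) ^ k := by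
    intro z hz hz1
    by_contra hcon
    push Not at hcon
    have hlt : ∀ k : ℕ, val z < val (algebraMap E₀ E t₀) ^ k := by
      intro k
      induction k with
      | zero =>
        rw [pow_zero]
        exact lt_of_le_of_ne hz1 (by simpa using hcon 0)
      | succ k ih =>
        refine lt_of_le_of_ne ?_ (hcon (k + 1))
        have h1 : val (z / algebraMap E₀ E t₀ ^ k) < 1 := by
          rw [map_div₀, map_pow]
          exact (div_lt_one₀ (pow_pos hτ0 k)).mpr ih
        have h2 := hunif _ h1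
        rw [map_div₀, map_pow, div_le_iff₀ (pow_pos hτ0 k)] at h2
        rw [pow_succ']
        exact h2
    obtain ⟨i, y, hi, hy, hle⟩ := exists_le_pow_of_isAlgebraic (E₀ := E₀) val hz
      (Algebra.IsAlgebraic.isAlgebraic z)
    obtain ⟨m, hm⟩ := h₀.2.2 y hy
    have hm' : val (algebraMap E₀ E y) = val (algebraMap E₀ E t₀) ^ m := hm
    have h3 : val z ^ i ≤ val z := by
      calc val z ^ i ≤ val z ^ 1 := pow_le_pow_of_le_one zero_le hz1 hi
        _ = val z := pow_one _
    have h4 : val z < val (algebraMap E₀ E t₀) ^ m := by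
      rcases le_or_gt 0 m with hm0 | hm0
      · obtain ⟨n, rfl⟩ := Int.eq_ofNat_of_zero_le hm0
        rw [zpow_natCast]
        exact hlt n
      · have h5 : (1 : Γ) ≤ val (algebraMap E₀ E t₀) ^ m := by
          by_contra h6
          push Not at h6
          have := (zpow_lt_one_iff_right_of_lt_one₀ hτ0 hτ1).mp h6
          omega
        exact lt_of_lt_of_le (by simpa using hlt 0) h5
    rw [← hm'] at h4
    exact lt_irrefl _ (lt_of_lt_of_le h4 (hle.trans h3))
  refine ⟨ht0, hτ1, fun z hz => ?_⟩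
  rcases le_or_gt (val z) 1 with h1 | h1
  · obtain ⟨k, hk⟩ := key z hz h1
    exact ⟨k, by rw [hk, zpow_natCast]⟩
  · have h2 : val z⁻¹ ≤ 1 := by
      rw [map_inv₀]
      exact inv_le_one_of_one_le₀ h1.le
    obtain ⟨k, hk⟩ := key z⁻¹ (inv_ne_zero hz) h2
    refine ⟨-(k : ℤ), ?_⟩
    rw [zpow_neg, zpow_natCast, ← hk, map_inv₀, inv_inv]

end Fermat.Agent.H88.KLB
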